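import Fermat.Agent.S32.P4.Alg

/-!
# S32 / P4 : the adjoint of an element of `ℤ[G]` with respect to a Galois equivariant pairing
-/

set_option autoImplicit false

namespace Fermat.Agent.S32.P4

open Fermat.Agent.S31

section

variable {W : Type*} [AddCommGroup W] (pr : W → W → Qb)
  (prL : ∀ x x' y, pr (x + x') y = pr x y * pr x' y)
  (prR : ∀ x y y', pr x (y + y') = pr x y * pr x y')
  (prne : ∀ x y, pr x y ≠ 0)

/-- the pairing as a homomorphism in the left variable. -/
noncomputable def homL (y : W) : W →+ Additive Qbˣ :=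
  AddMonoidHom.mk' (fun x => Additive.ofMul (Units.mk0 (pr x y) (prne x y))) (by
    intro a b
    rw [← ofMul_mul]
    congr 1
    ext
    simp only [Units.val_mk0, Units.val_mul]
    exact prL a b y)

/-- the pairing as a homomorphism in the right variable. -/
noncomputable def homR (x : W) : W →+ Additive Qbˣ :=
  AddMonoidHom.mk' (fun y => Additive.ofMul (Units.mk0 (pr x y) (prne x y))) (by
    intro a b
    rw [← ofMul_mul]
    congr 1
    ext
    simp only [Units.val_mk0, Units.val_mul]
    exact prR x a b)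

theorem homL_apply (x y : W) :
    homL pr prL prne y x = Additive.ofMul (Units.mk0 (pr x y) (prne x y)) := rfl

theorem homR_apply (x y : W) :
    homR pr prR prne x y = Additive.ofMul (Units.mk0 (pr x y) (prne x y)) := rfl

theorem homL_eq_zero_iff (x y : W) : homL pr prL prne y x = 0 ↔ pr x y = 1 := by
  rw [homL_apply, ofMul_eq_zero, Units.ext_iff]
  simp

include prL prne in
theorem pr_pow_eq_one (n : ℕ) (x y : W) (hx : n • x = 0) : pr x y ^ n = 1 := by
  have h1 : homL pr prL prne y (n • x) = 0 := by rw [hx, map_zero]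
  rw [map_nsmul, homL_apply, ← ofMul_pow, ofMul_eq_zero, Units.ext_iff] at h1
  simpa using h1

include prL prR prne in
/-- the adjoint of an element of `ℤ[G]` killing `W` kills `W`. -/
theorem adjoint_kills (act : GQ →* AddMonoid.End W)
    (prG : ∀ (σ : GQ) x y, pr (act σ x) (act σ y) = σ (pr x y))
    (prnd : ∀ x, (∀ y, pr x y = 1) → x = 0)
    (n : ℕ) (tors : ∀ w : W, n • w = 0)
    {ι : Type*} (s : Finset ι) (c : ι → ℤ) (g : ι → GQ) (d : ι → ℕ)
    (hd : ∀ i ∈ s, ∀ z : Qb, z ^ n = 1 → g i z = z ^ d i)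
    (ha : ∀ w : W, ∑ i ∈ s, c i • act (g i) w = 0) (v : W) :
    ∑ i ∈ s, c i • (d i • act (g i)⁻¹ v) = 0 := by
  apply prnd
  intro y
  rw [← homL_eq_zero_iff pr prL prne, map_sum]
  have h1 : homR pr prR prne v (∑ i ∈ s, c i • act (g i) y) = 0 := by rw [ha y, map_zero]
  rw [map_sum] at h1
  rw [← h1]
  refine Finset.sum_congr rfl fun i hi => ?_
  rw [map_zsmul, map_zsmul, map_nsmul]
  congr 1
  rw [homL_apply, homR_apply, ← ofMul_pow]
  congr 1
  ext
  simp only [Units.val_pow_eq_pow_val, Units.val_mk0]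
  have h2 : act (g i) (act (g i)⁻¹ v) = v := by
    rw [← end_mul_apply, ← map_mul, mul_inv_cancel, map_one]
    rfl
  rw [← hd i hi _ (pr_pow_eq_one pr prL prne n _ y (tors _)), ← prG, h2]

end

end Fermat.Agent.S32.P4
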