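import Fermat.Agent.S31.Core

/-!
# S32 / P4 : algebra for the abstract trace argument

* `hecke_congr_gen` : Artin-Rees for arbitrary elements of the Hecke ring;
* `trace_determines_ideal` : the version modulo an ideal of `S31.trace_determines`.
-/

set_option autoImplicit false

namespace Fermat.Agent.S32.P4

open Fermat.Agent.S31 Matrix

theorem hecke_congr_gen {H : Type*} [AddCommGroup H] [Module.Free ℤ H] [Module.Finite ℤ H] (p : ℕ)
    (TH : ℕ → Module.End ℤ H) {𝕋 : Type*} [CommRing 𝕋] (t : ℕ → 𝕋)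
    (faithful : ∀ P : FreeAlgebra ℤ ℕ, FreeAlgebra.lift ℤ TH P = 0 → FreeAlgebra.lift ℤ t P = 0) :
    ∃ k : ℕ, ∀ n ≥ k, ∀ P : FreeAlgebra ℤ ℕ,
      (∀ h : H, ∃ h' : H, FreeAlgebra.lift ℤ TH P h = (p ^ n) • h') →
      ∃ w : 𝕋, FreeAlgebra.lift ℤ t P = (p : 𝕋) ^ (n - k) * w := by
  obtain ⟨k, hk⟩ := artin_rees_end p (Subalgebra.toSubmodule (FreeAlgebra.lift ℤ TH).range)
  refine ⟨k, fun n hn P hdvd => ?_⟩
  have hx : FreeAlgebra.lift ℤ TH P ∈ Subalgebra.toSubmodule (FreeAlgebra.lift ℤ TH).range :=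
    ⟨P, rfl⟩
  obtain ⟨z, ⟨Q, hQ⟩, hz⟩ := hk n hn _ hx hdvd
  have h0 : FreeAlgebra.lift ℤ TH (P - ((p ^ (n - k) : ℕ) : ℤ) • Q) = 0 := by
    rw [map_sub, map_smul, hz, sub_eq_zero]
    congr 1
    exact hQ.symm
  have h1 := faithful _ h0
  rw [map_sub, map_smul, sub_eq_zero] at h1
  refine ⟨FreeAlgebra.lift ℤ t Q, ?_⟩
  rw [h1, zsmul_eq_mul]
  push_cast
  rfl

theorem lift_dseq {R : Type*} [Ring R] [Algebra ℤ R] (f : ℕ → R) (ℓ b : ℕ) :
    FreeAlgebra.lift ℤ f (dseq (FreeAlgebra.ι ℤ ℓ) ℓ b) = dseq (f ℓ) ℓ b := by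
  have h1 := map_dseq (FreeAlgebra.lift ℤ f : FreeAlgebra ℤ ℕ →ₐ[ℤ] R).toRingHom
    (FreeAlgebra.ι ℤ ℓ) ℓ b
  simp only [AlgHom.toRingHom_eq_coe, RingHom.coe_coe, FreeAlgebra.lift_ι_apply] at h1
  exact h1

theorem lift_sum_dseq {R : Type*} [Ring R] [Algebra ℤ R] (f : ℕ → R) {ι : Type*} (s : Finset ι)
    (c : ι → ℤ) (ℓ b : ι → ℕ) :
    FreeAlgebra.lift ℤ f (∑ i ∈ s, c i • dseq (FreeAlgebra.ι ℤ (ℓ i)) (ℓ i) (b i)) =
      ∑ i ∈ s, c i • dseq (f (ℓ i)) (ℓ i) (b i) := by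
  rw [map_sum]
  refine Finset.sum_congr rfl fun i _ => ?_
  rw [map_zsmul, lift_dseq]

theorem trace_determines_ideal {T : Type*} [CommRing T] [IsLocalRing T] {K : Type*} [Field K]
    [IsAlgClosed K] (φ : T →+* K) [IsLocalHom φ] {G : Type*} [Monoid G]
    (M : G →* Matrix (Fin 2) (Fin 2) T)
    (hirr : ∀ W : Submodule K (Fin 2 → K),
      (∀ g, ∀ v ∈ W, ((M g).map φ).mulVec v ∈ W) → W = ⊥ ∨ W = ⊤)
    (I : Ideal T)
    (X : Matrix (Fin 2) (Fin 2) T) (hX : ∀ g, (X * M g).trace ∈ I) (i j : Fin 2) : X i j ∈ I := by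
  classical
  let Mb : G →* Matrix (Fin 2) (Fin 2) K := (φ.mapMatrix : Matrix (Fin 2) (Fin 2) T →+* Matrix (Fin 2) (Fin 2) K).toMonoidHom.comp M
  have hspan := span_entries_eq_top Mb hirr
  set s : Set (Fin 2 × Fin 2 → K) :=
    Set.range fun g : G => fun ab : Fin 2 × Fin 2 => Mb g ab.1 ab.2 with hs
  obtain ⟨f, hfs, -, hfli⟩ := Submodule.exists_fun_fin_finrank_span_eq K s
  have hcard : Module.finrank K (Submodule.span K s) = 4 := by
    rw [hspan, finrank_top, Module.finrank_fintype_fun_eq_card]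
    simp
  let e : (Fin 2 × Fin 2) ≃ Fin (Module.finrank K (Submodule.span K s)) :=
    Fintype.equivOfCardEq (by rw [hcard]; simp)
  choose γ hγ using hfs
  let Ω : Matrix (Fin 2 × Fin 2) (Fin 2 × Fin 2) T := fun i ab => M (γ (e i)) ab.1 ab.2
  have hΩ : (Ω.map φ).row = f ∘ e := by
    funext i
    have := hγ (e i)
    simp only [Function.comp]
    rw [← this]
    rfl
  have hunit : IsUnit (Ω.map φ) := by
    rw [← Matrix.linearIndependent_rows_iff_isUnit, hΩ]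
    exact hfli.comp _ e.injective
  have hdet : IsUnit Ω.det := by
    have h1 : IsUnit (Ω.map φ).det := (Matrix.isUnit_iff_isUnit_det _).mp hunit
    have h2 : (Ω.map φ).det = φ Ω.det := by
      rw [RingHom.map_det]; rfl
    rw [h2] at h1
    exact (isUnit_map_iff φ _).mp h1
  let x : Fin 2 × Fin 2 → T := fun ab => X ab.2 ab.1
  have hx : ∀ i, Ω.mulVec x i ∈ I := by
    intro i
    have h1 := hX (γ (e i))
    simp only [Matrix.trace, Matrix.diag, Matrix.mul_apply] at h1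
    rw [Finset.sum_comm] at h1
    simp only [Matrix.mulVec, dotProduct]
    rw [Fintype.sum_prod_type]
    convert h1 using 1
    refine Finset.sum_congr rfl fun a _ => Finset.sum_congr rfl fun b _ => ?_
    exact mul_comm _ _
  have hx0 : x = Ω⁻¹.mulVec (Ω.mulVec x) := by
    rw [Matrix.mulVec_mulVec, Matrix.nonsing_inv_mul Ω hdet, Matrix.one_mulVec]
  have : X i j = x (j, i) := rfl
  rw [this, hx0]
  simp only [Matrix.mulVec, dotProduct]
  exact I.sum_mem fun ab _ => I.mul_mem_left _ (hx ab)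

end Fermat.Agent.S32.P4
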